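import Fermat.Agent.H15.MW.Weak
import Fermat.Agent.H53.ES.OpenStabAdapters
import Fermat.Agent.H29.ESB.Descent

/-!
# P-MW, block A: the inputs (A2), (A3) of weak Mordell-Weil from landed P-ES results
-/

set_option autoImplicit false

namespace Fermat.Agent.H15.MW

open ModularCurve AlgebraicCurve

/-- (A3) open stabilisers (helper53). -/
theorem openStab (N : ℕ) [NeZero N] : OpenStabStatement N :=
  fun x => Fermat.Agent.H53.jZero_openStabiliser N x

/-- (A2) finiteness of the torsion (ES-A over `ℂ`, ES-B descent). -/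
theorem torsionFinite (N : ℕ) [NeZero N] {n : ℕ} (hn : 0 < n) : TorsionFiniteStatement N n := by
  have hfin : Finite (Pic0.torsion (AlgebraicClosure ℚ) (modularFunctionFieldBar N) n) :=
    Fermat.Agent.H53.jTors_finite_of_descent N (Fermat.Agent.H29.descentStatement N) hn
  have h2 : (Set.range (fun x : Pic0.torsion (AlgebraicClosure ℚ) (modularFunctionFieldBar N) n
      => (x : JZero N))).Finite := Set.finite_range _
  refine h2.subset fun y hy => ⟨⟨y, ?_⟩, rfl⟩
  rw [Pic0.mem_torsion]
  exact (Nat.cast_smul_eq_nsmul ℤ n y).trans hy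

/-- Weak Mordell-Weil from (A1), (U), (K). -/
theorem weakMW_of_inputs (N : ℕ) [NeZero N] {n : ℕ} (hn : n.Prime)
    (hdiv : DivisibleStatement N n) (hU : DivisionUnramifiedStatement N n)
    (hK : KummerFinitenessStatement) : WeakMWStatement N n :=
  weakMW_of hdiv (torsionFinite N hn.pos)
    (divisionField_of (NeZero.ne N) hn (torsionFinite N hn.pos) (openStab N) hU hK)

end Fermat.Agent.H15.MW
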