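import Fermat.Agent.H15.MW.DivUnramOf
import Fermat.Agent.H15.MW.WeakInputs
import Fermat.Agent.H22.ES.KLFinal
import Fermat.Agent.H66.ESD.GaussNorm

/-!
# P-MW, block A, row MW-U (unconditional)

`divisionUnramified N hn : DivisionUnramifiedStatement N n` for every level `N ≠ 0` and `0 < n`,
from the landed key lemma (`H22.KL.keyLemmaAll`) and Gauss normal form
(`H66.gaussNormalForm`).

`weakMW_of_divisible_of_kummer`: weak Mordell-Weil from (A1) divisibility and (K) Kummer
finiteness alone.
-/

set_option autoImplicit false

namespace Fermat.Agent.H15.MW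

open ModularCurve AlgebraicCurve

/-- **MW-U, unconditional.** -/
theorem divisionUnramified (N : ℕ) [NeZero N] {n : ℕ} (hn : 0 < n) :
    DivisionUnramifiedStatement N n :=
  divisionUnramified_of Fermat.Agent.H22.KL.keyLemmaAll N
    (Fermat.Agent.H66.gaussNormalForm N) n hn

/-- Weak Mordell-Weil from (A1) and (K) alone. -/
theorem weakMW_of_divisible_of_kummer (N : ℕ) [NeZero N] {n : ℕ} (hn : n.Prime)
    (hdiv : DivisibleStatement N n) (hK : KummerFinitenessStatement) :
    WeakMWStatement N n :=
  weakMW_of_inputs N hn hdiv (divisionUnramified N hn.pos) hK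

end Fermat.Agent.H15.MW
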