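import Fermat.Agent.H15.MW.Weak
import Fermat.Agent.H79.TorsionUnramified
import Fermat.Agent.H53.SS2.InvRepGalois

/-!
# P-MW, block A, row MW-U: inertia at good primes fixes the division points of rational classes

`divisionUnramified_of : KeyLemmaAllStatement → GaussNormalFormStatement N → 0 < n →
  DivisionUnramifiedStatement N n`.

Proof.  Let `y = [D]` with `x = n • y` rational, `σ` in the inertia group of a place `A` over
`ℓ ∤ n N`.  The class `x` has a representative `D₀` which is fixed (as a divisor) by every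
element of the Galois group (the minimal effective representative relative to the cusp `∞`,
`H53.jZero_exists_invariant_effective`).  Write `n D - D₀ = div f` and `f = c a / b` in Gauss
normal form.  Then `σ(a) b` and `a σ(b)` are Laurent series over `A` in the function field with
equal nonzero reductions, and the divisor of their quotient is `σ (div f) - div f = n (σ D - D)`.
By the key lemma the quotient is an `n`-th power `w ^ n`, and `div w = σ D - D`.
-/

set_option autoImplicit false
set_option linter.style.haveILetI false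
set_option synthInstance.maxHeartbeats 400000

open AlgebraicCurve ModularCurve

namespace Fermat.Agent.H15.MW

open Fermat.Agent.H22.ES

section Abstract

variable {K F : Type*} [Field K] [Field F] [Algebra K F]

/-- If `div (g(a) b / (a g(b))) = m (g D - D)` and the quotient is an `m`-th power, then `g`
fixes the class of `D`. -/
theorem pic0_smul_mk_eq_of_pow_of_ord (g : SemilinearAut K F)
    (D : Divisor.degZero (K := K) (F := F)) (m : ℕ) (hm : 0 < m)
    (a b w : F) (ha : a ≠ 0) (hb : b ≠ 0)
    (hord : ∀ P : Place K F, P.ord ((g • a) * b) - P.ord (a * (g • b)) =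
      (m : ℤ) * ((g • (D : Divisor K F)) P - (D : Divisor K F) P))
    (hw : w ^ m * (a * (g • b)) = (g • a) * b) :
    g • Pic0.mk D = Pic0.mk D := by
  have hga0 : g • a ≠ 0 := by simpa using ha
  have hgb0 : g • b ≠ 0 := by simpa using hb
  have hw0 : w ≠ 0 := by
    intro h0
    rw [h0, zero_pow hm.ne', zero_mul] at hw
    exact mul_ne_zero hga0 hb hw.symm
  have hwD : ∀ P : Place K F, (g • (D : Divisor K F)) P - (D : Divisor K F) P = P.ord w := by
    intro P
    have h1 := congrArg P.ord hw
    rw [P.ord_mul (pow_ne_zero m hw0) (mul_ne_zero ha hgb0), ← zpow_natCast, P.ord_zpow] at h1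
    have h2 := hord P
    have h3 : (m : ℤ) * P.ord w = (m : ℤ) * ((g • (D : Divisor K F)) P - (D : Divisor K F) P) := by
      linarith
    have hm' : (m : ℤ) ≠ 0 := by exact_mod_cast hm.ne'
    exact (mul_left_cancel₀ hm' h3).symm
  rw [SemilinearAut.pic0_smul_mk]
  refine (QuotientAddGroup.eq.mpr ?_)
  rw [AddSubgroup.mem_addSubgroupOf]
  refine ⟨w⁻¹, inv_ne_zero hw0, fun P => ?_⟩
  rw [Place.ord_inv, ← hwD P]
  simp only [AddSubgroup.coe_add, NegMemClass.coe_neg, SemilinearAut.coe_degZeroSMulHom,
    Finsupp.coe_add, Finsupp.coe_neg, Pi.add_apply, Pi.neg_apply]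
  ring

end Abstract

section Main

/-- **(U) for division points, one level and one prime**, from the key lemma and the Gauss
normal form. -/
theorem divisionUnramified_of_keyLemma (N : ℕ) [NeZero N] (ℓ : ℕ) (hℓ : ℓ.Prime)
    (hKL : KeyLemmaStatement N ℓ) (hG : GaussNormalFormStatement N)
    (n : ℕ) (hn : 0 < n) (hℓn : ¬ ℓ ∣ n)
    (A : ValuationSubring (AlgebraicClosure ℚ)) (hA : A.LiesOverPrime ℓ)
    (σ : AlgebraicClosure ℚ ≃ₐ[ℚ] AlgebraicClosure ℚ) (hσ : σ ∈ A.inertiaSubgroupIn ℚ)
    (y : JZero N) (hy : IsRationalClass N (n • y)) : σ • y = y := by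
  have hσdec := Fermat.Agent.H8.mem_decomposition_of_mem_inertiaSubgroupIn A hσ
  obtain ⟨D, rfl⟩ := Pic0.mk_surjective y
  -- the invariant representative `D₀` of `x = n • [D]`
  obtain ⟨P₀, k, E, hP₀, -, -, ⟨D₀, hD₀, hED₀⟩, -, -, hinv⟩ :=
    Fermat.Agent.H53.jZero_exists_invariant_effective N (n • Pic0.mk D)
  have hgE := hinv σ (hy σ)
  have hgP := Fermat.Agent.H53.arithmeticGalois_smul_qPlace (modularFunctionFieldFull N) P₀ hP₀ σ
  have hgD₀ : ∀ P : Place (AlgebraicClosure ℚ) (modularFunctionFieldBar N),
      (D₀ : Divisor (AlgebraicClosure ℚ) (modularFunctionFieldBar N))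
          ((arithmeticGalois (modularFunctionFieldFull N) σ)⁻¹ • P) =
        (D₀ : Divisor (AlgebraicClosure ℚ) (modularFunctionFieldBar N)) P := by
    intro P
    have h1 : (D₀ : Divisor (AlgebraicClosure ℚ) (modularFunctionFieldBar N)) =
        E - Finsupp.single P₀ (k : ℤ) := by
      rw [hED₀, add_sub_cancel_right]
    have h2 : arithmeticGalois (modularFunctionFieldFull N) σ •
        (D₀ : Divisor (AlgebraicClosure ℚ) (modularFunctionFieldBar N)) =
        (D₀ : Divisor (AlgebraicClosure ℚ) (modularFunctionFieldBar N)) := by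
      rw [h1, smul_sub, hgE, SemilinearAut.smul_single, hgP]
    rw [← SemilinearAut.divisor_smul_apply, h2]
  -- `n D - D₀ = div f`
  have hcl : Pic0.mk D₀ = Pic0.mk (n • D) := by
    rw [hD₀]
    exact (map_nsmul (QuotientAddGroup.mk' _) n D).symm
  obtain ⟨f, hf0, hfD⟩ := (Fermat.Agent.H53.pic0_mk_eq_iff D₀ (n • D)).mp hcl
  have hfD' : ∀ P : Place (AlgebraicClosure ℚ) (modularFunctionFieldBar N),
      P.ord f = (n : ℤ) * (D : Divisor (AlgebraicClosure ℚ) (modularFunctionFieldBar N)) P -
        (D₀ : Divisor (AlgebraicClosure ℚ) (modularFunctionFieldBar N)) P := by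
    intro P
    have h := hfD P
    simp only [AddSubgroup.coe_nsmul, Finsupp.coe_smul, Pi.smul_apply, nsmul_eq_mul] at h
    linarith
  -- Gauss normal form
  obtain ⟨c, a, b, ha, hb, hc0, hared, hbred, hfab⟩ := hG A ℓ hℓ hA f hf0
  have ha'0 : (⟨coeffMap A.subtype a, ha⟩ : modularFunctionFieldBar N) ≠ 0 := fun h =>
    Fermat.Agent.H79.coeffMap_subtype_ne_zero A a hared (congrArg Subtype.val h)
  have hb'0 : (⟨coeffMap A.subtype b, hb⟩ : modularFunctionFieldBar N) ≠ 0 := fun h =>
    Fermat.Agent.H79.coeffMap_subtype_ne_zero A b hbred (congrArg Subtype.val h)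
  -- the order computation
  have hord : ∀ P : Place (AlgebraicClosure ℚ) (modularFunctionFieldBar N),
      P.ord ((arithmeticGalois (modularFunctionFieldFull N) σ •
          (⟨coeffMap A.subtype a, ha⟩ : modularFunctionFieldBar N)) *
        (⟨coeffMap A.subtype b, hb⟩ : modularFunctionFieldBar N)) -
      P.ord ((⟨coeffMap A.subtype a, ha⟩ : modularFunctionFieldBar N) *
        (arithmeticGalois (modularFunctionFieldFull N) σ •
          (⟨coeffMap A.subtype b, hb⟩ : modularFunctionFieldBar N))) =
      (n : ℤ) * ((arithmeticGalois (modularFunctionFieldFull N) σ •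
          (D : Divisor (AlgebraicClosure ℚ) (modularFunctionFieldBar N))) P -
        (D : Divisor (AlgebraicClosure ℚ) (modularFunctionFieldBar N)) P) := by
    intro P
    have h := Fermat.Agent.H79.ord_smul_mul_sub_ord
      (arithmeticGalois (modularFunctionFieldFull N) σ)
      ((n : ℤ) • (D : Divisor (AlgebraicClosure ℚ) (modularFunctionFieldBar N)) -
        (D₀ : Divisor (AlgebraicClosure ℚ) (modularFunctionFieldBar N))) 1 f _ _ c hf0 ha'0 hb'0
      hc0 (fun Q => by
        rw [hfD' Q]
        simp only [Finsupp.coe_sub, Finsupp.coe_smul, Pi.sub_apply, Pi.smul_apply, smul_eq_mul,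
          one_mul]) hfab P
    rw [h, SemilinearAut.divisor_smul_apply, SemilinearAut.divisor_smul_apply]
    simp only [Finsupp.coe_sub, Finsupp.coe_smul, Pi.sub_apply, Pi.smul_apply, smul_eq_mul,
      one_mul]
    rw [hgD₀ P]
    ring
  -- the two new series
  have ha₂eq : coeffMap A.subtype
        (coeffMap (Fermat.Agent.H79.restrictToValuationSubring A σ hσdec) a * b) =
      (((arithmeticGalois (modularFunctionFieldFull N) σ •
          (⟨coeffMap A.subtype a, ha⟩ : modularFunctionFieldBar N)) *
        (⟨coeffMap A.subtype b, hb⟩ : modularFunctionFieldBar N) : modularFunctionFieldBar N) :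
        LaurentSeries (AlgebraicClosure ℚ)) := by
    rw [map_mul, Fermat.Agent.H79.coeffMap_subtype_restrict]; rfl
  have hb₂eq : coeffMap A.subtype
        (a * coeffMap (Fermat.Agent.H79.restrictToValuationSubring A σ hσdec) b) =
      (((⟨coeffMap A.subtype a, ha⟩ : modularFunctionFieldBar N) *
        (arithmeticGalois (modularFunctionFieldFull N) σ •
          (⟨coeffMap A.subtype b, hb⟩ : modularFunctionFieldBar N)) : modularFunctionFieldBar N) :
        LaurentSeries (AlgebraicClosure ℚ)) := by
    rw [map_mul, Fermat.Agent.H79.coeffMap_subtype_restrict]; rfl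
  have ha₂mem : coeffMap A.subtype
      (coeffMap (Fermat.Agent.H79.restrictToValuationSubring A σ hσdec) a * b) ∈
      modularFunctionFieldBar N := by
    rw [ha₂eq]; exact Subtype.property _
  have hb₂mem : coeffMap A.subtype
      (a * coeffMap (Fermat.Agent.H79.restrictToValuationSubring A σ hσdec) b) ∈
      modularFunctionFieldBar N := by
    rw [hb₂eq]; exact Subtype.property _
  have hred : coeffMap (IsLocalRing.residue A)
        (coeffMap (Fermat.Agent.H79.restrictToValuationSubring A σ hσdec) a * b) =
      coeffMap (IsLocalRing.residue A)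
        (a * coeffMap (Fermat.Agent.H79.restrictToValuationSubring A σ hσdec) b) := by
    rw [map_mul, map_mul, Fermat.Agent.H79.coeffMap_residue_restrict A σ hσ,
      Fermat.Agent.H79.coeffMap_residue_restrict A σ hσ]
  have hred0 : coeffMap (IsLocalRing.residue A)
        (coeffMap (Fermat.Agent.H79.restrictToValuationSubring A σ hσdec) a * b) ≠ 0 := by
    rw [map_mul, Fermat.Agent.H79.coeffMap_residue_restrict A σ hσ]
    exact mul_ne_zero hared hbred
  -- apply the key lemma
  obtain ⟨w, hw⟩ := hKL A hA n hn hℓn _ _ ha₂mem hb₂mem hred hred0 (fun P => by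
    rw [show (⟨_, ha₂mem⟩ : modularFunctionFieldBar N) = _ from Subtype.ext ha₂eq,
      show (⟨_, hb₂mem⟩ : modularFunctionFieldBar N) = _ from Subtype.ext hb₂eq, hord P]
    exact dvd_mul_right _ _)
  rw [show (⟨_, ha₂mem⟩ : modularFunctionFieldBar N) = _ from Subtype.ext ha₂eq,
    show (⟨_, hb₂mem⟩ : modularFunctionFieldBar N) = _ from Subtype.ext hb₂eq] at hw
  rw [galois_smul_pic0_def]
  exact pic0_smul_mk_eq_of_pow_of_ord _ D n hn _ _ w ha'0 hb'0 hord hw

/-- **MW-U.**  The key lemma and the Gauss normal form imply that inertia at `ℓ ∤ n N` fixes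
every `n`-division point of a rational class of `J₀(N)`. -/
theorem divisionUnramified_of (hKL : KeyLemmaAllStatement) (N : ℕ) [NeZero N]
    (hG : GaussNormalFormStatement N) (n : ℕ) (hn : 0 < n) :
    DivisionUnramifiedStatement N n := by
  intro ℓ hℓ hℓN hℓn A hA σ hσ y hy
  exact divisionUnramified_of_keyLemma N ℓ hℓ (hKL N ℓ hℓ hℓN) hG n hn hℓn A hA σ hσ y hy

end Main

end Fermat.Agent.H15.MW
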