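import Fermat.Prelude.Def_ModularCurve_ArithmeticGalois
import Mathlib.Algebra.Ring.Action.Submonoid
import Mathlib.GroupTheory.Descent

/-!
# P-MW skeleton: Mordell-Weil for `JZero N` from weak Mordell-Weil plus a height package

`JQ N` is the group of Galois-fixed points of `JZero N`.  The inputs are

* `WeakMWStatement N n`   : `n • JQ N` has finite index in `JQ N`;
* `HeightStatement N n`   : a Northcott function `h` on `JQ N` with
  `h x ≤ a * h (g + x) + c g` and `b * h x - c₀ ≤ h (n • x)` for some `0 ≤ a < b`;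
* `QuadHeightStatement N` : the special case `n = 2` with the approximate parallelogram law.

`fg_of_weak_of_height` and `fg_of_weak_of_quadHeight` assemble them.
-/

set_option autoImplicit false

namespace Fermat.Agent.H15.MW

open ModularCurve AlgebraicCurve

/-- The absolute Galois group of `ℚ`, as used in the frozen statement. -/
abbrev GQ : Type := AlgebraicClosure ℚ ≃ₐ[ℚ] AlgebraicClosure ℚ

/-- The Mordell-Weil group `J₀(N)(ℚ)`: Galois-fixed points of `JZero N`. -/
abbrev JQ (N : ℕ) : Type _ := ↥(FixedPoints.addSubgroup GQ (JZero N))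

/-- Weak Mordell-Weil for multiplication by `n`. -/
def WeakMWStatement (N n : ℕ) : Prop :=
  (nsmulAddMonoidHom (α := JQ N) n).range.FiniteIndex

/-- A height package for the descent with multiplication by `n`. -/
def HeightStatement (N n : ℕ) : Prop :=
  ∃ (h : JQ N → ℝ) (a b c₀ : ℝ) (c : JQ N → ℝ),
    0 ≤ a ∧ a < b ∧ (∀ g x, h x ≤ a * h (g + x) + c g) ∧
      (∀ x, b * h x - c₀ ≤ h (n • x)) ∧ ∀ B : ℝ, {x : JQ N | h x ≤ B}.Finite

/-- A quasi-quadratic height package (descent with multiplication by `2`). -/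
def QuadHeightStatement (N : ℕ) : Prop :=
  ∃ (h : JQ N → ℝ) (C : ℝ),
    (∀ x, 0 ≤ h x) ∧ (∀ x y, |h (x + y) + h (x - y) - 2 * (h x + h y)| ≤ C) ∧
      ∀ B : ℝ, {x : JQ N | h x ≤ B}.Finite

theorem fg_of_weak_of_height (N n : ℕ) (hw : WeakMWStatement N n) (hh : HeightStatement N n) :
    AddGroup.FG (JQ N) := by
  obtain ⟨h, a, b, c₀, c, ha, hab, h2, h3, hN⟩ := hh
  have : Northcott h := ⟨hN⟩
  exact AddCommGroup.fg_of_descent ha hab hw h2 h3

theorem fg_of_weak_of_quadHeight (N : ℕ) (hw : WeakMWStatement N 2)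
    (hh : QuadHeightStatement N) : AddGroup.FG (JQ N) := by
  obtain ⟨h, C, h0, hpar, hN⟩ := hh
  have : Northcott h := ⟨hN⟩
  exact AddCommGroup.fg_of_descent' hw h0 hpar

/-- A trivial group is finitely generated: the genus-zero levels reduce to `JZero N = 0`. -/
theorem fg_of_subsingleton (N : ℕ) (h : Subsingleton (JZero N)) : AddGroup.FG (JQ N) := by
  have : Subsingleton (JQ N) := ⟨fun a b => Subtype.ext (Subsingleton.elim _ _)⟩
  exact AddGroup.fg_of_finite

end Fermat.Agent.H15.MW
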