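import Fermat.Agent.H15.MW.Skeleton
import Fermat.Prelude.Def_FLTPrelim_Ramification
import Mathlib.FieldTheory.Galois.Infinite
import Mathlib.FieldTheory.Normal.Basic
import Mathlib.FieldTheory.IsAlgClosed.AlgebraicClosure

/-!
# P-MW, block A: weak Mordell-Weil for `JZero N` — exact interfaces and the formal assembly

Inputs (each a `Prop`, proved in separate rows):

* `DivisibleStatement N n`          (A1) every rational class is `n • y` for some `y : JZero N`;
* `TorsionFiniteStatement N n`      (A2) `J[n]` is finite;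
* `OpenStabStatement N`             (A3) every point is fixed by the fixer of a number field;
* `DivisionUnramifiedStatement N n` (U)  inertia at `ℓ ∤ n N` fixes every `y` with `n • y` rational;
* `KummerFinitenessStatement`       (K)  pure number theory: for a number field `K ⊆ ℚ̄`, a prime
  `n` and a finite set `S` of primes, ONE number field `L` works for all open subgroups `H` with
  `G_K / (H ⊓ G_K)` abelian of exponent `n` and containing the inertia groups outside `S`.

Formal steps proved here: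

* `divisionField_of`  : (A2) + (A3) + (U) + (K) → `DivisionFieldStatement N n`;
* `weakMW_of`         : (A1) + (A2) + `DivisionFieldStatement N n` → `WeakMWStatement N n`.
-/

set_option autoImplicit false

namespace Fermat.Agent.H15.MW

open ModularCurve AlgebraicCurve

/-- A class fixed by the absolute Galois group. -/
def IsRationalClass (N : ℕ) (x : JZero N) : Prop := ∀ σ : GQ, σ • x = x

/-- (A1) divisibility of rational classes by `n` inside `JZero N`. -/
def DivisibleStatement (N n : ℕ) : Prop :=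
  ∀ x : JZero N, IsRationalClass N x → ∃ y : JZero N, n • y = x

/-- (A2) finiteness of the `n`-torsion of `JZero N`. -/
def TorsionFiniteStatement (N n : ℕ) : Prop :=
  {y : JZero N | n • y = 0}.Finite

/-- (A3) open stabilisers. -/
def OpenStabStatement (N : ℕ) : Prop :=
  ∀ x : JZero N, ∃ L : IntermediateField ℚ (AlgebraicClosure ℚ), FiniteDimensional ℚ L ∧
    ∀ σ : GQ, (∀ a ∈ L, σ a = a) → σ • x = x

/-- (Fin) one number field fixes all `n`-division points of rational classes. -/
def DivisionFieldStatement (N n : ℕ) : Prop :=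
  ∃ L : IntermediateField ℚ (AlgebraicClosure ℚ), FiniteDimensional ℚ L ∧
    ∀ y : JZero N, IsRationalClass N (n • y) →
      ∀ σ : GQ, (∀ a ∈ L, σ a = a) → σ • y = y

/-- (U) inertia at good primes fixes the `n`-division points of rational classes. -/
def DivisionUnramifiedStatement (N n : ℕ) : Prop :=
  ∀ ℓ : ℕ, ℓ.Prime → ¬ ℓ ∣ N → ¬ ℓ ∣ n →
    ∀ A : ValuationSubring (AlgebraicClosure ℚ), A.LiesOverPrime ℓ →
      ∀ σ ∈ A.inertiaSubgroupIn ℚ, ∀ y : JZero N, IsRationalClass N (n • y) → σ • y = y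

/-- (K) finiteness of the maximal abelian extension of exponent `n` unramified outside `S`,
phrased with subgroups of the absolute Galois group. -/
def KummerFinitenessStatement : Prop :=
  ∀ n : ℕ, n.Prime → ∀ K : IntermediateField ℚ (AlgebraicClosure ℚ), FiniteDimensional ℚ K →
    ∀ S : Finset ℕ,
      ∃ L : IntermediateField ℚ (AlgebraicClosure ℚ), FiniteDimensional ℚ L ∧
        ∀ H : Subgroup GQ,
          (∃ M : IntermediateField ℚ (AlgebraicClosure ℚ), FiniteDimensional ℚ M ∧
            ∀ σ : GQ, (∀ a ∈ M, σ a = a) → σ ∈ H) →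
          (∀ σ τ : GQ, (∀ a ∈ K, σ a = a) → (∀ a ∈ K, τ a = a) → σ * τ * σ⁻¹ * τ⁻¹ ∈ H) →
          (∀ σ : GQ, (∀ a ∈ K, σ a = a) → σ ^ n ∈ H) →
          (∀ ℓ : ℕ, ℓ.Prime → ℓ ∉ S →
            ∀ A : ValuationSubring (AlgebraicClosure ℚ), A.LiesOverPrime ℓ →
              ∀ σ ∈ A.inertiaSubgroupIn ℚ, (∀ a ∈ K, σ a = a) → σ ∈ H) →
          ∀ σ : GQ, (∀ a ∈ L, σ a = a) → σ ∈ H

section Assembly

variable {N n : ℕ}

/-- One number field fixing a finite set of points. -/
theorem exists_field_of_finite (hopen : OpenStabStatement N) (T : Set (JZero N))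
    (hT : T.Finite) :
    ∃ L : IntermediateField ℚ (AlgebraicClosure ℚ), FiniteDimensional ℚ L ∧
      ∀ σ : GQ, (∀ a ∈ L, σ a = a) → ∀ x ∈ T, σ • x = x := by
  induction T, hT using Set.Finite.induction_on with
  | empty => exact ⟨⊥, inferInstance, fun _ _ x hx => absurd hx (Set.notMem_empty x)⟩
  | @insert a s _ _ ih =>
    obtain ⟨L₁, hL₁, h₁⟩ := ih
    obtain ⟨L₂, hL₂, h₂⟩ := hopen a
    refine ⟨L₁ ⊔ L₂, IntermediateField.finiteDimensional_sup L₁ L₂, fun σ hσ x hx => ?_⟩
    rcases Set.mem_insert_iff.mp hx with rfl | hx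
    · exact h₂ σ fun b hb => hσ b ((le_sup_right : L₂ ≤ L₁ ⊔ L₂) hb)
    · exact h₁ σ (fun b hb => hσ b ((le_sup_left : L₁ ≤ L₁ ⊔ L₂) hb)) x hx

/-- The stabiliser of a point as a subgroup of the Galois group. -/
def stab (N : ℕ) (y : JZero N) : Subgroup GQ where
  carrier := {σ | σ • y = y}
  one_mem' := one_smul _ _
  mul_mem' := by
    intro a b ha hb
    show (a * b) • y = y
    rw [mul_smul, show b • y = y from hb, show a • y = y from ha]
  inv_mem' := by
    intro a ha
    show a⁻¹ • y = y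
    have h : a • y = y := ha
    calc a⁻¹ • y = a⁻¹ • (a • y) := by rw [h]
      _ = y := inv_smul_smul a y

theorem mem_stab {y : JZero N} {σ : GQ} : σ ∈ stab N y ↔ σ • y = y := Iff.rfl

theorem smul_nsmul_comm (τ : GQ) (k : ℕ) (y : JZero N) : τ • (k • y) = k • (τ • y) :=
  (DistribSMul.toAddMonoidHom (JZero N) τ).map_nsmul k y

/-- **(Fin)** from (A2), (A3), (U), (K). -/
theorem divisionField_of (hN : N ≠ 0) (hn : n.Prime) (htors : TorsionFiniteStatement N n)
    (hopen : OpenStabStatement N) (hU : DivisionUnramifiedStatement N n)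
    (hK : KummerFinitenessStatement) : DivisionFieldStatement N n := by
  obtain ⟨K, hKfin, hKfix⟩ := exists_field_of_finite hopen _ htors
  obtain ⟨L, hLfin, hL⟩ := hK n hn K hKfin ((Finset.range (n * N + 1)).filter
    fun ℓ => ℓ ∣ n ∨ ℓ ∣ N)
  refine ⟨L, hLfin, fun y hy σ hσ => ?_⟩
  -- the cocycle `t σ = σ y - y` takes values in `J[n]`
  have htor : ∀ τ : GQ, n • (τ • y - y) = 0 := by
    intro τ
    rw [nsmul_sub, ← smul_nsmul_comm, hy τ, sub_self]
  have hfixt : ∀ ρ τ : GQ, (∀ a ∈ K, ρ a = a) → ρ • (τ • y - y) = τ • y - y :=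
    fun ρ τ hρ => hKfix ρ hρ _ (htor τ)
  -- additivity on `G_K`
  have hadd : ∀ ρ τ : GQ, (∀ a ∈ K, ρ a = a) →
      (ρ * τ) • y - y = (ρ • y - y) + (τ • y - y) := by
    intro ρ τ hρ
    have h1 := hfixt ρ τ hρ
    rw [smul_sub] at h1
    rw [mul_smul]
    have : ρ • τ • y = τ • y - y + ρ • y := by
      rw [← h1]; abel
    rw [this]; abel
  have hKmul : ∀ ρ τ : GQ, (∀ a ∈ K, ρ a = a) → (∀ a ∈ K, τ a = a) →
      ∀ a ∈ K, (ρ * τ) a = a := fun ρ τ hρ hτ a ha => by
    rw [AlgEquiv.mul_apply, hτ a ha, hρ a ha]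
  have hKinv : ∀ ρ : GQ, (∀ a ∈ K, ρ a = a) → ∀ a ∈ K, ρ⁻¹ a = a := fun ρ hρ a ha => by
    have h := hρ a ha
    calc ρ⁻¹ a = ρ⁻¹ (ρ a) := by rw [h]
      _ = (ρ⁻¹ * ρ) a := rfl
      _ = a := by rw [inv_mul_cancel]; rfl
  have hinvt : ∀ ρ : GQ, (∀ a ∈ K, ρ a = a) → ρ⁻¹ • y - y = -(ρ • y - y) := by
    intro ρ hρ
    have h := hadd ρ⁻¹ ρ (hKinv ρ hρ)
    rw [inv_mul_cancel, one_smul, sub_self] at h
    exact eq_neg_of_add_eq_zero_left h.symm
  have hpow : ∀ (ρ : GQ), (∀ a ∈ K, ρ a = a) → ∀ k : ℕ,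
      (∀ a ∈ K, (ρ ^ k) a = a) ∧ (ρ ^ k) • y - y = k • (ρ • y - y) := by
    intro ρ hρ k
    induction k with
    | zero => exact ⟨fun a _ => by simp, by simp⟩
    | succ k ih =>
      refine ⟨fun a ha => ?_, ?_⟩
      · rw [pow_succ]; exact hKmul _ _ ih.1 hρ a ha
      · rw [pow_succ, hadd _ _ ih.1, ih.2, succ_nsmul]
  refine (mem_stab (N := N)).mp (hL (stab N y) ?_ ?_ ?_ ?_ σ hσ)
  · obtain ⟨M, hM, hMy⟩ := hopen y
    exact ⟨M, hM, fun τ hτ => hMy τ hτ⟩
  · intro ρ τ hρ hτ
    show (ρ * τ * ρ⁻¹ * τ⁻¹) • y = y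
    have h1 := hadd (ρ * τ * ρ⁻¹) τ⁻¹ (hKmul _ _ (hKmul _ _ hρ hτ) (hKinv ρ hρ))
    have h2 := hadd (ρ * τ) ρ⁻¹ (hKmul _ _ hρ hτ)
    have h3 := hadd ρ τ hρ
    rw [h2, h3, hinvt ρ hρ] at h1
    rw [hinvt τ hτ] at h1
    have : (ρ * τ * ρ⁻¹ * τ⁻¹) • y - y = 0 := by rw [h1]; abel
    exact sub_eq_zero.mp this
  · intro ρ hρ
    show (ρ ^ n) • y = y
    have := (hpow ρ hρ n).2
    rw [htor ρ] at this
    exact sub_eq_zero.mp this
  · intro ℓ hℓ hℓS A hA ρ hρ _
    show ρ • y = y
    have hnN : 0 < n * N := Nat.mul_pos hn.pos (Nat.pos_of_ne_zero hN)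
    have hmem : ∀ {d : ℕ}, d ∣ n ∨ d ∣ N → ℓ = d → False := by
      intro d hd hℓd
      subst hℓd
      apply hℓS
      rw [Finset.mem_filter, Finset.mem_range]
      refine ⟨Nat.lt_succ_of_le (Nat.le_of_dvd hnN ?_), hd⟩
      rcases hd with h | h
      · exact Dvd.dvd.mul_right h N
      · exact Dvd.dvd.mul_left h n
    exact hU ℓ hℓ (fun h => hmem (Or.inr h) rfl) (fun h => hmem (Or.inl h) rfl) A hA ρ hρ y hy

/-- A subgroup has finite index as soon as a map into a finite type separates its cosets. -/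
theorem finiteIndex_of_separating {G : Type*} [AddCommGroup G] (H : AddSubgroup G)
    {α : Type*} [Finite α] (f : G → α) (hf : ∀ x x', f x = f x' → x - x' ∈ H) :
    H.FiniteIndex := by
  have hinj : Function.Injective fun q : G ⧸ H => f q.out := by
    intro q q' h
    have h' := hf _ _ h
    rw [← QuotientAddGroup.out_eq' q, ← QuotientAddGroup.out_eq' q']
    rw [QuotientAddGroup.eq]
    have : -Quotient.out q + Quotient.out q' = -(Quotient.out q - Quotient.out q') := by abel
    rw [this]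
    exact H.neg_mem h'
  have : Finite (G ⧸ H) := Finite.of_injective _ hinj
  exact AddSubgroup.finiteIndex_of_finite_quotient

/-- **Weak Mordell-Weil** from divisibility (A1), finiteness of the torsion (A2) and the
division field (Fin). -/
theorem weakMW_of (hdiv : DivisibleStatement N n) (htors : TorsionFiniteStatement N n)
    (hfield : DivisionFieldStatement N n) : WeakMWStatement N n := by
  classical
  obtain ⟨L, hLfin, hL⟩ := hfield
  -- a chosen `n`-th part of every rational class
  have hex : ∀ x : JQ N, ∃ y : JZero N, n • y = (x : JZero N) := fun x =>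
    hdiv x.1 fun σ => x.2 σ
  choose y hy using hex
  have hrat : ∀ x : JQ N, IsRationalClass N (n • y x) := fun x σ => by
    rw [hy x]; exact x.2 σ
  have : Finite (L →ₐ[ℚ] AlgebraicClosure ℚ) := inferInstance
  have : Finite {t : JZero N | n • t = 0} := htors.to_subtype
  -- the invariant
  let f : JQ N → ((L →ₐ[ℚ] AlgebraicClosure ℚ) → Option {t : JZero N | n • t = 0}) :=
    fun x ι =>
      if h : ∃ σ : GQ, ∀ a : L, σ (a : AlgebraicClosure ℚ) = ι a then
        some ⟨h.choose • y x - y x, by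
          show n • (h.choose • y x - y x) = 0
          rw [nsmul_sub, ← smul_nsmul_comm, hrat x h.choose, sub_self]⟩
      else none
  refine finiteIndex_of_separating _ f fun x x' hxx' => ?_
  -- `z = y x - y x'` is rational
  have hz : ∀ σ : GQ, σ • (y x - y x') = y x - y x' := by
    intro σ
    let ι : L →ₐ[ℚ] AlgebraicClosure ℚ := (σ : AlgebraicClosure ℚ →ₐ[ℚ] AlgebraicClosure ℚ).comp L.val
    have hι : ∃ τ : GQ, ∀ a : L, τ (a : AlgebraicClosure ℚ) = ι a := ⟨σ, fun a => rfl⟩
    have key : ∀ w : JQ N, σ • y w - y w = hι.choose • y w - y w := by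
      intro w
      have hτ := hι.choose_spec
      have hfix : ∀ a ∈ L, (hι.choose⁻¹ * σ) a = a := by
        intro a ha
        have h1 := hτ ⟨a, ha⟩
        show hι.choose⁻¹ (σ a) = a
        have h2 : ι ⟨a, ha⟩ = σ a := rfl
        rw [← h2, ← h1]
        show (hι.choose⁻¹ * hι.choose) a = a
        rw [inv_mul_cancel]; rfl
      have h3 := hL (y w) (hrat w) _ hfix
      rw [mul_smul] at h3
      have h4 : σ • y w = hι.choose • y w := by
        calc σ • y w = hι.choose • (hι.choose⁻¹ • σ • y w) := (smul_inv_smul _ _).symm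
          _ = hι.choose • y w := by rw [h3]
      rw [h4]
    have hfx := congrFun hxx' ι
    simp only [f, dif_pos hι, Option.some.injEq, Subtype.mk.injEq] at hfx
    rw [smul_sub]
    have e1 := key x
    have e2 := key x'
    have : σ • y x - y x = σ • y x' - y x' := by rw [e1, e2, hfx]
    have h5 : σ • y x - σ • y x' = y x - y x' := by
      have := congrArg (fun t => t + (y x - σ • y x')) this
      beta_reduce at this
      have l : σ • y x - y x + (y x - σ • y x') = σ • y x - σ • y x' := by abel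
      have r : σ • y x' - y x' + (y x - σ • y x') = y x - y x' := by abel
      rw [l, r] at this
      exact this
    exact h5
  refine ⟨⟨y x - y x', hz⟩, ?_⟩
  apply Subtype.ext
  show n • (y x - y x') = (x - x' : JQ N).1
  rw [nsmul_sub, hy x, hy x']
  rfl

end Assembly

end Fermat.Agent.H15.MW
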