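import Fermat.Agent.H15.MW.DivUnram
import Fermat.Agent.H86.MWKummerFinal

/-!
# P-MW, block A: weak Mordell-Weil for `JZero N` from divisibility alone

All other inputs are landed and unconditional:

* (A2) finiteness of `J[n]`, (A3) open stabilisers            (`WeakInputs`);
* (U)  inertia at good primes fixes division points           (`DivUnram`, from the key lemma);
* (K)  Kummer finiteness                                      (`H86.MWK.kummerFiniteness`).

`weakMW_of_divisible`    : `DivisibleStatement N n → WeakMWStatement N n` for a prime `n`;
`weakMW_of_divisibleBar` : the same from divisibility of all classes;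
`fg_of_divisible_of_quadHeight` : Mordell-Weil from divisibility by `2` and a quasi-quadratic
Northcott height.
-/

set_option autoImplicit false

namespace Fermat.Agent.H15.MW

open ModularCurve AlgebraicCurve

/-- **Weak Mordell-Weil** from divisibility of rational classes. -/
theorem weakMW_of_divisible (N : ℕ) [NeZero N] {n : ℕ} (hn : n.Prime)
    (hdiv : DivisibleStatement N n) : WeakMWStatement N n :=
  weakMW_of_divisible_of_kummer N hn hdiv Fermat.Agent.H86.MWK.kummerFiniteness

/-- **Weak Mordell-Weil** from divisibility of all classes. -/
theorem weakMW_of_divisibleBar (N : ℕ) [NeZero N] {n : ℕ} (hn : n.Prime)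
    (hdiv : ∀ x : JZero N, ∃ y : JZero N, n • y = x) : WeakMWStatement N n :=
  weakMW_of_divisible N hn fun x _ => hdiv x

/-- **Mordell-Weil** from divisibility by `2` and a quasi-quadratic Northcott height. -/
theorem fg_of_divisible_of_quadHeight (N : ℕ) [NeZero N]
    (hdiv : ∀ x : JZero N, ∃ y : JZero N, 2 • y = x) (hh : QuadHeightStatement N) :
    AddGroup.FG ↥(FixedPoints.addSubgroup
      ((AlgebraicClosure ℚ) ≃ₐ[ℚ] (AlgebraicClosure ℚ)) (JZero N)) :=
  fg_of_weak_of_quadHeight N (weakMW_of_divisibleBar N Nat.prime_two hdiv) hh

end Fermat.Agent.H15.MW
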